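import Fermat.Agent.FF19.G0.Interface
import Fermat.Agent.RED.EvBasic

/-!
# FF19 / Conc : the Galois part of the model dictionary, abstract form (helper12)

`Γ` a set of semilinear automorphisms of `F / K` which preserve the Gauss valuation ring, act trivially on the
special fibre and fix the coordinate `t` (`TrivOn D t g`; to be applied to the inertia group).

* `Abs_fixed` : a `Γ`-fixed function `u`, regular on the disc of `x`, whose reduction is a local parameter at `x`
  (after subtracting the reduction of a `Γ`-fixed constant `a`) has a unique point `P` in the disc with `u(P) = a`,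
  and `P` is `Γ`-fixed.  (= LIFT.)
-/

set_option autoImplicit false

namespace Fermat.Agent.FF19.Conc

open AlgebraicCurve
open Fermat.Agent.INJ (RedData IsInt)
open Fermat.Agent.RED (Ev)
open Fermat.Agent.FF19.G0 (Model Sp RegAt)

/-- `g` preserves `D.O`, acts trivially on the special fibre and fixes `t`. -/
structure TrivOn {K F k κ : Type} [Field K] [Field F] [Algebra K F] [Field k] [Field κ] [Algebra k κ]
    (D : RedData K F k κ) (t : F) (g : SemilinearAut K F) : Prop where
  mem : ∀ z : F, g • z ∈ D.O ↔ z ∈ D.O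
  rd : ∀ z ∈ D.O, D.rd (g • z) = D.rd z
  fix : g • t = t

/-- **LIFT, abstract form.** -/
theorem Abs_fixed (hSimple : G0.Stmt_Simple) (hAut : G0.Stmt_SpAut)
    {K F k κ : Type} [Field K] [IsAlgClosed K] [CharZero K] [Field F] [Algebra K F] [Field k]
    [IsAlgClosed k] [Field κ] [Algebra k κ] (D : RedData K F k κ) (t : F) (hM : Model D t)
    (Γ : Set (SemilinearAut K F)) (hΓ : ∀ g ∈ Γ, TrivOn D t g)
    (x : Place k κ) (u : F) (hu : RegAt D t x u) (hfix : ∀ g ∈ Γ, g • u = u)
    (a : K) (ha : a ∈ D.A) (hafix : ∀ g ∈ Γ, SemilinearAut.baseAut g a = a)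
    (hord : x.ord (D.rd u - algebraMap k κ (D.ra a)) = 1) :
    ∃ P : Place K F, Sp D t P x ∧ Ev P u a ∧ ∀ g ∈ Γ, g • P = P := by
  obtain ⟨P, hP, hev, -, huniq⟩ := hSimple K F k κ D t hM x u hu a ha hord
  refine ⟨P, hP, hev, fun g hg => ?_⟩
  have h1 : Sp D t (g • P) x := hAut K F k κ D t g (hΓ g hg).mem (hΓ g hg).rd (hΓ g hg).fix P x hP
  have h2 : Ev (g • P) u a := by
    have := Fermat.Agent.RED.ev_smul g hev
    rwa [hfix g hg, hafix g hg] at this
  exact huniq _ h1 h2

/-- the value of `t` at `g • P`. -/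
theorem Abs_val {K F k κ : Type} [Field K] [Field F] [Algebra K F] [Field k] [Field κ] [Algebra k κ]
    (D : RedData K F k κ) (t : F) (g : SemilinearAut K F) (hg : TrivOn D t g)
    (P : Place K F) (c : K) (h : Ev P t c) : Ev (g • P) t (SemilinearAut.baseAut g c) := by
  have := Fermat.Agent.RED.ev_smul g h
  rwa [hg.fix] at this

end Fermat.Agent.FF19.Conc
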