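import Fermat.Agent.FF19.Conc.Main
import Fermat.Agent.FF19.Geo.Interface
import Fermat.Agent.FF19.G0.All
import Fermat.Agent.FF19.Law.ArchQ

/-!
# FF19 / Conc : the contract `Geo.Stmt_Conc M l` (assembly of `Conc/Main.lean`).
-/

set_option autoImplicit false
set_option synthInstance.maxHeartbeats 400000

noncomputable section

namespace Fermat.Agent.FF19.Conc

open AlgebraicCurve ModularCurve
open Fermat.Agent
open Fermat.Agent.INJ (RedData IsInt)
open Fermat.Agent.INJ.Inst (Qb FL kA tS IsGauss)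
open Fermat.Agent.BR.Inst (IsGaussS)
open Fermat.Agent.RED (Ev GQ)
open Fermat.Agent.FF19.G0 (Model Sp RegAt)

theorem ConcAll_conc (M l : ℕ) (hl : l.Prime) (hlM : ¬ l ∣ M) (h23 : 2 ∣ M ∨ 3 ∣ M) :
    Geo.Stmt_Conc M l := by
  intro A hA
  have hM0 : M ≠ 0 := by
    rintro rfl
    exact hlM (dvd_zero l)
  have : NeZero M := ⟨hM0⟩
  obtain ⟨r, hr, hrM⟩ : ∃ r : ℕ, (r = 2 ∨ r = 3) ∧ r ∣ M := by
    rcases h23 with h | h
    · exact ⟨2, Or.inl rfl, h⟩
    · exact ⟨3, Or.inr rfl, h⟩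
  obtain ⟨L, D, t, hP⟩ := exists_pack r M l hl hr hrM hlM A hA
  refine ⟨kA A, L, inferInstance, S18G.isAlgClosed_kA A, inferInstance, inferInstance, D, t, ?_⟩
  have hDA : D.A = A := hP.gauss.gauss.hA
  refine ⟨hDA, hP.model, ?_, ?_, ?_, ?_, ?_⟩
  · refine Law.archQ Qb D.A l hl ?_
    rw [hDA]
    exact hA
  · intro σ hσ
    exact (pack_triv hP σ hσ).fix
  · intro σ hσ
    exact (pack_triv hP σ hσ).mem
  · intro σ hσ
    exact (pack_triv hP σ hσ).rd
  · intro x
    exact pack_lift G0.all_Simple G0.all_SpAut G0.all_RegBB hP hl hA x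

end Fermat.Agent.FF19.Conc

end
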