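import Fermat.Agent.FF19.Conc.Main
import Fermat.Agent.FF19.Geo.Interface
import Fermat.Agent.FF19.Law.ArchQ

/-!
# FF19 / Conc : the contract `Geo.Stmt_Conc M l` of the concrete layer (helper12)
-/

set_option autoImplicit false
set_option synthInstance.maxHeartbeats 400000

noncomputable section

namespace Fermat.Agent.FF19.Conc

open AlgebraicCurve ModularCurve
open Fermat.Agent
open Fermat.Agent.INJ (RedData IsInt)
open Fermat.Agent.INJ.Inst (Qb FL kA tS IsGauss)
open Fermat.Agent.RED (Ev GQ)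
open Fermat.Agent.FF19.G0 (Model Sp RegAt)

/-- **`Geo.Stmt_Conc M l`** at every level `M` divisible by `2` or `3` and prime to `l`. -/
theorem stmt_Conc (hSimple : G0.Stmt_Simple) (hAut : G0.Stmt_SpAut) (hReg : G0.Stmt_RegBB)
    (M l : ℕ) (hl : l.Prime) (hlM : ¬ l ∣ M) (hM : 2 ∣ M ∨ 3 ∣ M) : Geo.Stmt_Conc M l := by
  intro A hA
  have hM0 : M ≠ 0 := by
    rintro rfl
    exact hlM (dvd_zero l)
  have : NeZero M := ⟨hM0⟩
  obtain ⟨r, hr, hrM⟩ : ∃ r : ℕ, (r = 2 ∨ r = 3) ∧ r ∣ M := by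
    rcases hM with h | h
    · exact ⟨2, Or.inl rfl, h⟩
    · exact ⟨3, Or.inr rfl, h⟩
  obtain ⟨L, D, t, h⟩ := exists_pack r M l hl hr hrM hlM A hA
  have hDA : D.A = A := h.gauss.gauss.hA
  have hArch : Law.Arch D.A := by
    rw [hDA]
    have : Algebra.IsAlgebraic ℚ Qb := AlgebraicClosure.isAlgebraic ℚ
    exact Law.archQ Qb A l hl hA
  exact ⟨kA A, L, inferInstance, S18G.isAlgClosed_kA A, inferInstance, inferInstance, D, t,
    { hA := hDA
      model := h.model
      arch := hArch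
      t_gal := fun σ hσ => (pack_triv h σ hσ).fix
      O_gal := fun σ hσ => (pack_triv h σ hσ).mem
      rd_gal := fun σ hσ => (pack_triv h σ hσ).rd
      lift := fun x => pack_lift hSimple hAut hReg h hl hA x }⟩

/-- the form used by `Top.Stmt_Top`. -/
theorem stmt_Conc49 (hSimple : G0.Stmt_Simple) (hAut : G0.Stmt_SpAut) (hReg : G0.Stmt_RegBB)
    (M l : ℕ) (hl : l.Prime) (hlM : ¬ l ∣ M) (hM : 4 ∣ M ∨ 9 ∣ M) : Geo.Stmt_Conc M l :=
  stmt_Conc hSimple hAut hReg M l hl hlM (by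
    rcases hM with h | h
    · exact Or.inl (dvd_trans (by norm_num) h)
    · exact Or.inr (dvd_trans (by norm_num) h))

end Fermat.Agent.FF19.Conc

end
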