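import Fermat.Agent.FF19.Conc.Abs
import Fermat.Agent.FF19.Kap.LocFrac
import Fermat.Agent.MR.Node.FrobEx
import Fermat.Agent.INJ.Inst.AllInst
import Fermat.Agent.INJ.Inst.ArchD36
import Fermat.Agent.INJ.P17
import Fermat.Agent.INJ.All

/-!
# FF19 / Conc : the model package at the level `M` (`2 ∣ M` or `3 ∣ M`, `l ∤ M`) and the action of inertia (helper12)

* `Pack r M A L D t` : the Gauss datum `D` on `FL M`, the Hauptmodul coordinate `t = x_r(q^(M/r))`, `G0.Model D t`.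
* `exists_pack` : it exists.
* `pack_triv` : inertia satisfies `TrivOn D t` (hypotheses of `G0.Stmt_SpAut`).
* `pack_lift` : **LIFT** every point of the special fibre is the specialisation of an inertia-fixed place.
-/

set_option autoImplicit false
set_option synthInstance.maxHeartbeats 400000

noncomputable section

namespace Fermat.Agent.FF19.Conc

open AlgebraicCurve ModularCurve
open Fermat.Agent
open Fermat.Agent.INJ (RedData IsInt)
open Fermat.Agent.INJ.Inst (Qb FL kA tS IsGauss)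
open Fermat.Agent.BR.Inst (IsGaussS)
open Fermat.Agent.RED (Ev GQ)
open Fermat.Agent.FF19.G0 (Model Sp RegAt)

/-- the model package at level `M`. -/
structure Pack (r M : ℕ) (A : ValuationSubring Qb)
    (L : IntermediateField (kA A) (LaurentSeries (kA A))) (D : RedData Qb (FL M) (kA A) L)
    (t : FL M) : Prop where
  gauss : IsGaussS M A L D
  coe_t : (t : LaurentSeries Qb) = tS r M Qb
  model : Model D t

theorem exists_pack (r M l : ℕ) [NeZero M] (hl : l.Prime) (hr : r = 2 ∨ r = 3) (hrM : r ∣ M)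
    (hlM : ¬ l ∣ M) (A : ValuationSubring Qb) (hA : A.LiesOverPrime l) :
    ∃ (L : IntermediateField (kA A) (LaurentSeries (kA A))) (D : RedData Qb (FL M) (kA A) L)
      (t : FL M), Pack r M A L D t := by
  have : Fact l.Prime := ⟨hl⟩
  obtain ⟨L, D, hD⟩ := BR.Inst.exists_gaussS M A
  let t : FL M := ⟨tS r M Qb, INJ.Inst.tS_mem_bar hr (NeZero.ne M) hrM⟩
  have hC : INJ.Chart D t := INJ.Inst.all_ChartT r M l hr hrM hlM A hA L D hD.gauss t rfl
  obtain ⟨hB, hB'⟩ := INJ.Inst.all_BranchT r M l hr hrM hlM A hA L D hD.gauss t rfl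
  exact ⟨L, D, t, hD, rfl, hC, INJ.stmt_ChartInv _ _ _ _ D t hC, hB, hB',
    INJ.Inst.AR36_stmt_ArchD M l A hA L D hD.gauss⟩

variable {r M : ℕ} {A : ValuationSubring Qb}
  {L : IntermediateField (kA A) (LaurentSeries (kA A))} {D : RedData Qb (FL M) (kA A) L} {t : FL M}

/-- `t` is fixed by the whole Galois group. -/
theorem pack_gal_t (h : Pack r M A L D t) (σ : GQ) : ES.Mid.gal M σ t = t := by
  apply Subtype.ext
  rw [ES.Mid.coe_gal, h.coe_t, INJ.Inst.coeffMap_tS]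

theorem pack_gal_t_inv (h : Pack r M A L D t) (σ : GQ) : ES.Mid.gal M σ t⁻¹ = t⁻¹ := by
  rw [map_inv₀, pack_gal_t h]

theorem smul_eq_gal (σ : GQ) (z : FL M) : RED.gal M σ • z = ES.Mid.gal M σ z := rfl

/-- inertia acts trivially on the special fibre. -/
theorem pack_triv (h : Pack r M A L D t) (σ : GQ) (hσ : σ ∈ A.inertiaSubgroupIn ℚ) :
    TrivOn D t (RED.gal M σ) := by
  have key : ∀ τ : GQ, τ ∈ A.inertiaSubgroupIn ℚ → ∀ z ∈ D.O,
      ES.Mid.gal M τ z ∈ D.O ∧ D.rd (ES.Mid.gal M τ z) = D.rd z := by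
    intro τ hτ z hz
    have hInd := (BR.Inst.stmt_Induces A τ).1 hτ
    obtain ⟨h1, h2⟩ := BR.Inst.stmt_RedGal M A L D h.gauss τ _ hInd z hz
    refine ⟨h1, Subtype.ext ?_⟩
    rw [h2, coeffMap_id]
  refine ⟨fun z => ⟨fun hz => ?_, fun hz => (key σ hσ z hz).1⟩, fun z hz => (key σ hσ z hz).2,
    pack_gal_t h σ⟩
  have h1 := (key σ⁻¹ (inv_mem hσ) _ hz).1
  have h2 : ES.Mid.gal M σ⁻¹ (RED.gal M σ • z) = z := by
    have : (RED.gal M σ⁻¹) • (RED.gal M σ • z) = z := by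
      rw [← mul_smul, ← map_mul, inv_mul_cancel, map_one, one_smul]
    exact this
  rwa [h2] at h1

/-- the set of semilinear automorphisms coming from inertia. -/
def IneSet (M : ℕ) (A : ValuationSubring Qb) : Set (SemilinearAut Qb (FL M)) :=
  {g | ∃ σ ∈ A.inertiaSubgroupIn ℚ, g = RED.gal M σ}

/-- an inertia-fixed function in `BB_T` lifting a uniformiser at `x`. -/
theorem pack_unif (hReg : G0.Stmt_RegBB) (h : Pack r M A L D t) [NeZero M] {l : ℕ} (hl : l.Prime)
    (hA : A.LiesOverPrime l) (x : Place (kA A) L) :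
    ∃ u : FL M, RegAt D t x u ∧ (∀ σ ∈ A.inertiaSubgroupIn ℚ, ES.Mid.gal M σ u = u) ∧
      x.ord (D.rd u) = 1 := by
  have : IsAlgClosed (kA A) := S18G.isAlgClosed_kA A
  have ht0 : D.rd t ≠ 0 := by
    intro h0
    exact h.model.chart.trans (by rw [h0]; exact isAlgebraic_zero)
  have main : ∀ T : FL M, (T = t ∨ T = t⁻¹) → INJ.Chart D T → INJ.Branch D T →
      (∀ σ : GQ, ES.Mid.gal M σ T = T) → D.rd T ∈ x.toValuationSubring →
      ∃ u : FL M, RegAt D t x u ∧ (∀ σ ∈ A.inertiaSubgroupIn ℚ, ES.Mid.gal M σ u = u) ∧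
        x.ord (D.rd u) = 1 := by
    intro T hT hC hB hfix hx
    have hsep : Kap.IsSepVar (kA A) (D.rd T) :=
      ⟨hC.trans, INJ.stmt_ResFinite _ _ _ _ D T hC.t_mem hC.trans hC.fin, hC.sep⟩
    obtain ⟨-, ϖ, hϖi, hϖo⟩ := Kap.stmt_LocFrac (kA A) L (D.rd T) hsep x hx
    have hN : BR.Inv.Normal D T := INJ.all_Normal _ _ _ _ D T hC hB
    obtain ⟨z, -, hzO, hzr, hzi⟩ := MR.Node.FrobEx_lift M l A hl hA L D h.gauss T hfix hN ϖ hϖi
    refine ⟨S36.Base.emb A M z, ?_, fun σ hσ => S36.Base.gal_emb A M z hσ, by rw [hzr]; exact hϖo⟩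
    exact (hReg _ _ _ _ D t h.model T hT x hx).1 _ hzO hzi
  rcases x.toValuationSubring.mem_or_inv_mem (D.rd t) with hx | hx
  · exact main t (Or.inl rfl) h.model.chart h.model.branch (pack_gal_t h) hx
  · refine main t⁻¹ (Or.inr rfl) h.model.chart' h.model.branch' (pack_gal_t_inv h) ?_
    rwa [RedData.rd_inv ht0]

/-- **LIFT** : every point of the special fibre is the specialisation of an inertia-fixed place. -/
theorem pack_lift (hSimple : G0.Stmt_Simple) (hAut : G0.Stmt_SpAut) (hReg : G0.Stmt_RegBB)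
    (h : Pack r M A L D t) [NeZero M] {l : ℕ} (hl : l.Prime) (hA : A.LiesOverPrime l)
    (x : Place (kA A) L) :
    ∃ Q : Place Qb (FL M), Sp D t Q x ∧ ∀ σ ∈ A.inertiaSubgroupIn ℚ, RED.gal M σ • Q = Q := by
  have : IsAlgClosed (kA A) := S18G.isAlgClosed_kA A
  obtain ⟨u, hu, hfix, hord⟩ := pack_unif hReg h hl hA x
  have hra : D.ra 0 = 0 := by
    rw [RedData.ra_of_mem D.A.zero_mem]; exact map_zero D.rA
  obtain ⟨Q, hQ, -, hQfix⟩ := Abs_fixed hSimple hAut D t h.model (IneSet M A)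
    (by rintro g ⟨σ, hσ, rfl⟩; exact pack_triv h σ hσ) x u hu
    (by rintro g ⟨σ, hσ, rfl⟩; exact hfix σ hσ) 0 D.A.zero_mem
    (by rintro g ⟨σ, hσ, rfl⟩; exact map_zero _)
    (by rw [hra, map_zero, sub_zero]; exact hord)
  exact ⟨Q, hQ, fun σ hσ => hQfix _ ⟨σ, hσ, rfl⟩⟩

end Fermat.Agent.FF19.Conc

end
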